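/-
P-MW block E, row 916 (MW-E-D-PRIN, helper10):
`idealDivisorPrincipal : IdealDivisorMemStatement → IdealDivisorGaloisStatement → FixedStatement →
  IdealDivisorPrincipalStatement`.

An ideal of `RatRing F₀ t` is principal iff its divisor is principal (Hilbert 90 through the
normalised generator of `Fermat.Agent.H53.exists_fixed_generator`), together with the descent
of integrality from `ℚ̄[t]` to `ℚ[t]`.
-/
import Mathlib
import Fermat.Agent.H23.MWE.Interfaces
import Fermat.Agent.H53.SS2.InvRepGalois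
import Fermat.Agent.H58.RR.CharZero
import Fermat.Agent.H68.PoleDict

set_option autoImplicit false
set_option linter.style.haveILetI false
set_option synthInstance.maxHeartbeats 400000

noncomputable section

open ModularCurve AlgebraicCurve IntermediateField

namespace Fermat.Agent.H10.MWE

open Fermat.Agent.H92.MW (QQbar)
open Fermat.Agent.H23.MWE

variable (F₀ : IntermediateField ℚ (LaurentSeries ℚ))

theorem dp_toBar_algebraMap (r : ℚ) :
    toBar F₀ (algebraMap ℚ ↥F₀ r) = algebraMap QQbar (FBar F₀) (algebraMap ℚ QQbar r) := by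
  exact DFunLike.congr_fun (Subsingleton.elim ((toBar F₀).comp (algebraMap ℚ ↥F₀))
    ((algebraMap QQbar (FBar F₀)).comp (algebraMap ℚ QQbar))) r

/-- Elements of `ℚ̄` are integral over `ℚ`. -/
theorem dp_isIntegral_rat (c : QQbar) : IsIntegral ℚ c := by
  have h : @IsIntegral ℚ (AlgebraicClosure ℚ) _ _ (AlgebraicClosure.instAlgebra ℚ) c :=
    Algebra.IsIntegral.isIntegral c
  have e : (DivisionRing.toRatAlgebra : Algebra ℚ (AlgebraicClosure ℚ)) =
      AlgebraicClosure.instAlgebra ℚ := Subsingleton.elim _ _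
  show @IsIntegral ℚ (AlgebraicClosure ℚ) _ _ DivisionRing.toRatAlgebra c
  rw [e]
  exact h

/-- `toBar` maps `ℚ[t]` into `ℚ̄[toBar t]`. -/
theorem dp_toBar_mem_adjoin (t s : ↥F₀) (hs : s ∈ Algebra.adjoin ℚ ({t} : Set ↥F₀)) :
    toBar F₀ s ∈ Algebra.adjoin QQbar ({toBar F₀ t} : Set (FBar F₀)) := by
  induction hs using Algebra.adjoin_induction with
  | mem x hx =>
    rw [Set.mem_singleton_iff] at hx
    subst hx
    exact Algebra.subset_adjoin (Set.mem_singleton _)
  | algebraMap r =>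
    rw [dp_toBar_algebraMap]
    exact Subalgebra.algebraMap_mem _ _
  | add x y _ _ hx hy =>
    rw [map_add]
    exact Subalgebra.add_mem _ hx hy
  | mul x y _ _ hx hy =>
    rw [map_mul]
    exact Subalgebra.mul_mem _ hx hy

/-- Integrality over `ℚ[t]` gives integrality over `ℚ̄[toBar t]`. -/
theorem dp_isIntegral_toBar (t x : ↥F₀)
    (hx : IsIntegral (Algebra.adjoin ℚ ({t} : Set ↥F₀)) x) :
    IsIntegral (Algebra.adjoin QQbar ({toBar F₀ t} : Set (FBar F₀))) (toBar F₀ x) := by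
  let φ : ↥(Algebra.adjoin ℚ ({t} : Set ↥F₀)) →+*
      ↥(Algebra.adjoin QQbar ({toBar F₀ t} : Set (FBar F₀))) :=
    { toFun := fun s => ⟨toBar F₀ s, dp_toBar_mem_adjoin F₀ t s s.2⟩
      map_one' := Subtype.ext (map_one (toBar F₀))
      map_mul' := fun a b => Subtype.ext (map_mul (toBar F₀) (a : ↥F₀) (b : ↥F₀))
      map_zero' := Subtype.ext (map_zero (toBar F₀))
      map_add' := fun a b => Subtype.ext (map_add (toBar F₀) (a : ↥F₀) (b : ↥F₀)) }
  exact IsIntegral.map_of_comp_eq φ (toBar F₀) (by ext; rfl) hx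

/-- **Descent of integrality** from `ℚ̄[toBar t]` to `ℚ[t]`. -/
theorem dp_isIntegral_of_toBar (t x : ↥F₀)
    (hx : IsIntegral (Algebra.adjoin QQbar ({toBar F₀ t} : Set (FBar F₀))) (toBar F₀ x)) :
    IsIntegral (Algebra.adjoin ℚ ({t} : Set ↥F₀)) x := by
  classical
  let φ : ↥(Algebra.adjoin ℚ ({t} : Set ↥F₀)) →+* FBar F₀ :=
    (toBar F₀).comp (algebraMap ↥(Algebra.adjoin ℚ ({t} : Set ↥F₀)) ↥F₀)
  letI algS : Algebra ↥(Algebra.adjoin ℚ ({t} : Set ↥F₀)) (FBar F₀) := φ.toAlgebra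
  have hA : ∀ y : FBar F₀, y ∈ Algebra.adjoin QQbar ({toBar F₀ t} : Set (FBar F₀)) →
      IsIntegral ↥(Algebra.adjoin ℚ ({t} : Set ↥F₀)) y := by
    intro y hy
    induction hy using Algebra.adjoin_induction with
    | mem z hz =>
      rw [Set.mem_singleton_iff] at hz
      subst hz
      exact isIntegral_algebraMap (R := ↥(Algebra.adjoin ℚ ({t} : Set ↥F₀))) (A := FBar F₀)
        (x := ⟨t, Algebra.subset_adjoin (Set.mem_singleton t)⟩)
    | algebraMap c =>
      have hc : IsIntegral ℚ c := dp_isIntegral_rat c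
      exact IsIntegral.map_of_comp_eq (algebraMap ℚ ↥(Algebra.adjoin ℚ ({t} : Set ↥F₀)))
        (algebraMap QQbar (FBar F₀)) (Subsingleton.elim _ _) hc
    | add a b _ _ ha hb => exact ha.add hb
    | mul a b _ _ ha hb => exact ha.mul hb
  let incl : ↥(Algebra.adjoin QQbar ({toBar F₀ t} : Set (FBar F₀))) →+*
      ↥(integralClosure ↥(Algebra.adjoin ℚ ({t} : Set ↥F₀)) (FBar F₀)) :=
    { toFun := fun a => ⟨a.1, hA a.1 a.2⟩
      map_one' := rfl
      map_mul' := fun _ _ => rfl
      map_zero' := rfl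
      map_add' := fun _ _ => rfl }
  have h1 : IsIntegral ↥(integralClosure ↥(Algebra.adjoin ℚ ({t} : Set ↥F₀)) (FBar F₀))
      (toBar F₀ x) :=
    IsIntegral.map_of_comp_eq incl (RingHom.id (FBar F₀)) (by ext; rfl) hx
  have h2 : toBar F₀ x ∈ integralClosure
      ↥(integralClosure ↥(Algebra.adjoin ℚ ({t} : Set ↥F₀)) (FBar F₀)) (FBar F₀) := h1
  rw [integralClosure_idem] at h2
  obtain ⟨c, hc⟩ := Algebra.mem_bot.mp h2
  have h3 : IsIntegral ↥(Algebra.adjoin ℚ ({t} : Set ↥F₀)) (toBar F₀ x) := by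
    rw [← hc]
    exact c.2
  obtain ⟨p, hp, hp0⟩ := h3
  refine ⟨p, hp, ?_⟩
  have h4 : toBar F₀ (Polynomial.eval₂ (algebraMap ↥(Algebra.adjoin ℚ ({t} : Set ↥F₀)) ↥F₀) x p)
      = 0 := by
    rw [Polynomial.hom_eval₂]
    exact hp0
  exact (map_eq_zero_iff _ (toBar F₀).injective).mp h4

variable {F₀}

/-- Elements of `RatRing` are regular outside `P`. -/
theorem dp_ord_nonneg {t : ↥F₀} {P : Place QQbar (FBar F₀)} (hT : TData F₀ t P)
    (r : RatRing F₀ t) (Q : Place QQbar (FBar F₀)) (hQ : Q ≠ P) :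
    0 ≤ Q.ord (toBar F₀ (r : ↥F₀)) := by
  have hsep := Fermat.Agent.H84.isSeparable_of_charZero (K := QQbar) (toBar F₀ t) hT.fin_bar
  exact (Fermat.Agent.H68.pd_isIntegral_iff (K := QQbar) (toBar F₀ t) hT.fin_bar hsep
    (toBar F₀ (r : ↥F₀))).mp (dp_isIntegral_toBar F₀ t r r.2) Q (hT.reg Q hQ)

/-- An element of `F₀` which is regular outside `P` lies in `RatRing`. -/
theorem dp_mem_of_ord_nonneg {t : ↥F₀} {P : Place QQbar (FBar F₀)} (hT : TData F₀ t P)
    (a : ↥F₀) (ha : ∀ Q : Place QQbar (FBar F₀), Q ≠ P → 0 ≤ Q.ord (toBar F₀ a)) :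
    IsIntegral (Algebra.adjoin ℚ ({t} : Set ↥F₀)) a := by
  have hsep := Fermat.Agent.H84.isSeparable_of_charZero (K := QQbar) (toBar F₀ t) hT.fin_bar
  apply dp_isIntegral_of_toBar F₀ t a
  rw [Fermat.Agent.H68.pd_isIntegral_iff (K := QQbar) (toBar F₀ t) hT.fin_bar hsep]
  intro v hv
  apply ha v
  rintro rfl
  have := hT.pole
  omega

/-- There is a place different from `P`. -/
theorem dp_exists_ne {t : ↥F₀} {P : Place QQbar (FBar F₀)} (hT : TData F₀ t P) :
    ∃ Q : Place QQbar (FBar F₀), Q ≠ P := by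
  by_contra hcon
  push Not at hcon
  haveI := Fermat.Agent.H58.rr_hasPrincipalDivisors_charZero QQbar (FBar F₀) (toBar F₀ t)
    hT.trans_bar hT.fin_bar
  have ht0 : toBar F₀ t ≠ 0 := fun h => hT.trans_bar (h ▸ isAlgebraic_zero)
  obtain ⟨E, hE, hE0⟩ := HasPrincipalDivisors.exists_divisor (K := QQbar) (toBar F₀ t) ht0
  have hdeg := (Fermat.Agent.H84.fundamentalIdentity QQbar (FBar F₀) (toBar F₀ t)
    hT.trans_bar hT.fin_bar).1
  have hEs : E = Finsupp.single P (E P) := by
    ext v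
    rw [hcon v, Finsupp.single_eq_same]
  rw [hEs, Divisor.degree_single, hE P, hdeg P] at hE0
  have := hT.pole
  simp only [Nat.cast_one, mul_one] at hE0
  omega

/-- Two divisors of degree `0` which agree outside `P` are equal. -/
theorem dp_eq_of_eq_off {t : ↥F₀} {P : Place QQbar (FBar F₀)} (hT : TData F₀ t P)
    (D E : Divisor QQbar (FBar F₀)) (hD : Divisor.degree D = 0) (hE : Divisor.degree E = 0)
    (h : ∀ Q : Place QQbar (FBar F₀), Q ≠ P → D Q = E Q) : D = E := by
  classical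
  have hdeg := (Fermat.Agent.H84.fundamentalIdentity QQbar (FBar F₀) (toBar F₀ t)
    hT.trans_bar hT.fin_bar).1
  have hs : D - E = Finsupp.single P (D P - E P) := by
    ext v
    by_cases hv : v = P
    · subst hv
      rw [Finsupp.single_eq_same]
      rfl
    · rw [Finsupp.single_eq_of_ne (by exact hv)]
      show D v - E v = 0
      rw [h v hv, sub_self]
  have h0 : Divisor.degree (D - E) = 0 := by rw [map_sub, hD, hE, sub_zero]
  rw [hs, Divisor.degree_single, hdeg P] at h0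
  simp only [Nat.cast_one, mul_one] at h0
  ext v
  by_cases hv : v = P
  · subst hv
    omega
  · exact h v hv

/-- **MW-E-D-PRIN** (row 916). -/
theorem idealDivisorPrincipal (hM : IdealDivisorMemStatement)
    (hG : IdealDivisorGaloisStatement) (hF : FixedStatement) :
    IdealDivisorPrincipalStatement := by
  classical
  intro F₀ t P hT I D hID
  have hRR : Fermat.Agent.H58.RRHyp QQbar (FBar F₀) :=
    Fermat.Agent.H58.rrHyp_charZero QQbar (FBar F₀) (toBar F₀ t) hT.trans_bar hT.fin_bar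
  haveI := hRR.principal
  have hmem := hM F₀ t P hT I D hID
  constructor
  · -- principal divisor ⟹ principal ideal
    intro hD
    obtain ⟨g, hg0, hDg, hgfix⟩ := Fermat.Agent.H53.exists_fixed_generator F₀ hRR D hD
    have hfix : ∀ σ : GalQ, arithmeticGalois F₀ σ • g = g :=
      fun σ => hgfix σ (hG F₀ t P hT I D hID σ)
    obtain ⟨a, ha⟩ := hF F₀ g hfix
    have ha0 : a ≠ 0 := by
      rintro rfl
      rw [map_zero] at ha
      exact hg0 ha.symm
    have hDa : ∀ v : Place QQbar (FBar F₀), D v = v.ord (toBar F₀ a) := by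
      intro v
      rw [ha]
      exact hDg v
    -- `D ≥ 0` outside `P`
    have hD0 : ∀ Q : Place QQbar (FBar F₀), Q ≠ P → 0 ≤ D Q := by
      intro Q hQ
      obtain ⟨f, -, -, hf⟩ := (hID.2 Q hQ).2
      rw [← hf]
      exact dp_ord_nonneg hT f Q hQ
    have haint : IsIntegral (Algebra.adjoin ℚ ({t} : Set ↥F₀)) a :=
      dp_mem_of_ord_nonneg hT a (fun Q hQ => by rw [← hDa]; exact hD0 Q hQ)
    let a' : RatRing F₀ t := ⟨a, haint⟩
    have ha'0 : a' ≠ 0 := fun h => ha0 (congrArg Subtype.val h)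
    refine ⟨⟨a', ?_⟩⟩
    apply le_antisymm
    · intro f hf
      rcases eq_or_ne f 0 with rfl | hf0
      · exact Submodule.zero_mem _
      have hford : ∀ Q : Place QQbar (FBar F₀), Q ≠ P → D Q ≤ Q.ord (toBar F₀ (f : ↥F₀)) :=
        ((hmem f).mp hf).resolve_left hf0
      have hf0' : (f : ↥F₀) ≠ 0 := fun h => hf0 (Subtype.ext h)
      have hrint : IsIntegral (Algebra.adjoin ℚ ({t} : Set ↥F₀)) ((f : ↥F₀) * a⁻¹) := by
        apply dp_mem_of_ord_nonneg hT
        intro Q hQ
        rw [map_mul, map_inv₀, Q.ord_mul ((map_ne_zero _).mpr hf0')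
          (inv_ne_zero ((map_ne_zero _).mpr ha0)), Q.ord_inv, ← hDa Q]
        have := hford Q hQ
        omega
      rw [Submodule.mem_span_singleton]
      refine ⟨⟨(f : ↥F₀) * a⁻¹, hrint⟩, ?_⟩
      apply Subtype.ext
      show (f : ↥F₀) * a⁻¹ * a = f
      rw [inv_mul_cancel_right₀ ha0]
    · rw [Submodule.span_singleton_le_iff_mem]
      rw [hmem a']
      right
      intro Q hQ
      exact le_of_eq (hDa Q)
  · -- principal ideal ⟹ principal divisor
    rintro ⟨⟨a', ha'⟩⟩
    obtain ⟨Q₀, hQ₀⟩ := dp_exists_ne hT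
    have ha'I : a' ∈ I := by
      rw [ha']
      exact Submodule.mem_span_singleton_self a'
    have ha'0 : a' ≠ 0 := by
      rintro rfl
      obtain ⟨f, hf, hf0, -⟩ := (hID.2 Q₀ hQ₀).2
      rw [ha'] at hf
      rw [Submodule.mem_span_singleton] at hf
      obtain ⟨r, rfl⟩ := hf
      exact hf0 (smul_zero r)
    have ha0 : toBar F₀ (a' : ↥F₀) ≠ 0 :=
      (map_ne_zero _).mpr (fun h => ha'0 (Subtype.ext h))
    obtain ⟨E, hE, hE0⟩ := HasPrincipalDivisors.exists_divisor (K := QQbar)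
      (toBar F₀ (a' : ↥F₀)) ha0
    have hDE : D = E := by
      apply dp_eq_of_eq_off hT D E hID.1 hE0
      intro Q hQ
      rw [hE Q]
      apply le_antisymm
      · exact (hID.2 Q hQ).1 a' ha'I ha'0
      · obtain ⟨f, hf, hf0, hfQ⟩ := (hID.2 Q hQ).2
        rw [← hfQ]
        rw [ha', Submodule.mem_span_singleton] at hf
        obtain ⟨r, rfl⟩ := hf
        have hr0 : r ≠ 0 := by
          rintro rfl
          exact hf0 (zero_smul _ _)
        have h1 : ((r • a' : RatRing F₀ t) : ↥F₀) = (r : ↥F₀) * (a' : ↥F₀) := rfl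
        rw [h1, map_mul, Q.ord_mul ((map_ne_zero _).mpr (fun h => hr0 (Subtype.ext h))) ha0]
        have := dp_ord_nonneg hT r Q hQ
        omega
    rw [hDE]
    exact ⟨toBar F₀ (a' : ↥F₀), ha0, hE⟩

end Fermat.Agent.H10.MWE
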